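import Mathlib
import Fermat.Agent.S22.Defs

/-!
S23 module N2: holomorphy from integrality.

If `g / d` (quotient of two holomorphic functions on the upper half plane, `d ≠ 0`) is a root of
a monic polynomial with continuous coefficients, then it extends to a holomorphic function.
-/

set_option autoImplicit false

open UpperHalfPlane ModularForm CongruenceSubgroup SlashInvariantForm
open scoped MatrixGroups ModularForm Manifold Topology

namespace Fermat.Agent.S23

/-- A root of a monic polynomial is bounded in terms of the coefficients. -/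
theorem root_norm_le (μ : ℕ) (a : ℕ → ℂ) (y : ℂ) (ha0 : a 0 = 1)
    (h : ∑ i ∈ Finset.range (μ + 1), a i * y ^ (μ - i) = 0) :
    ‖y‖ ≤ max 1 (∑ i ∈ Finset.Icc 1 μ, ‖a i‖) := by
  by_cases hy : ‖y‖ ≤ 1
  · exact le_max_of_le_left hy
  push Not at hy
  refine le_max_of_le_right ?_
  rcases Nat.eq_zero_or_pos μ with rfl | hμ
  · simp [ha0] at h
  have hsplit : ∑ i ∈ Finset.range (μ + 1), a i * y ^ (μ - i)
      = y ^ μ + ∑ i ∈ Finset.Icc 1 μ, a i * y ^ (μ - i) := by
    rw [Finset.range_eq_Ico, Finset.sum_eq_sum_Ico_succ_bot (Nat.succ_pos μ)]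
    simp only [ha0, one_mul, Nat.sub_zero, zero_add]
    rfl
  have hy_eq : y ^ μ = - ∑ i ∈ Finset.Icc 1 μ, a i * y ^ (μ - i) := by
    rw [hsplit] at h
    exact eq_neg_of_add_eq_zero_left h
  have hnorm : ‖y‖ ^ μ ≤ (∑ i ∈ Finset.Icc 1 μ, ‖a i‖) * ‖y‖ ^ (μ - 1) := by
    calc ‖y‖ ^ μ = ‖y ^ μ‖ := (norm_pow _ _).symm
      _ = ‖∑ i ∈ Finset.Icc 1 μ, a i * y ^ (μ - i)‖ := by rw [hy_eq, norm_neg]
      _ ≤ ∑ i ∈ Finset.Icc 1 μ, ‖a i * y ^ (μ - i)‖ := norm_sum_le _ _
      _ ≤ ∑ i ∈ Finset.Icc 1 μ, ‖a i‖ * ‖y‖ ^ (μ - 1) := by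
          refine Finset.sum_le_sum fun i hi => ?_
          rw [norm_mul, norm_pow]
          refine mul_le_mul_of_nonneg_left ?_ (norm_nonneg _)
          exact pow_le_pow_right₀ hy.le (by have := (Finset.mem_Icc.mp hi).1; omega)
      _ = _ := by rw [Finset.sum_mul]
  have hpos : 0 < ‖y‖ ^ (μ - 1) := pow_pos (lt_trans one_pos hy) _
  have hpow : ‖y‖ ^ μ = ‖y‖ * ‖y‖ ^ (μ - 1) := by
    rw [← pow_succ']
    congr 1
    omega
  rw [hpow] at hnorm
  exact le_of_mul_le_mul_right hnorm hpos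

namespace Holo

/-- If a holomorphic function on the upper half plane vanishes near a point (seen in `ℂ`),
it vanishes identically. -/
theorem eq_zero_of_eventually' (d : ℍ → ℂ) (hd : MDiff d) (z₀ : ℂ) (hz₀ : 0 < z₀.im)
    (hev : ∀ᶠ z in 𝓝 z₀, (d ∘ ofComplex) z = 0) : d = 0 := by
  have hD : DifferentiableOn ℂ (d ∘ ofComplex) upperHalfPlaneSet := mdifferentiable_iff.mp hd
  have hAn : AnalyticOnNhd ℂ (d ∘ ofComplex) upperHalfPlaneSet :=
    hD.analyticOnNhd isOpen_upperHalfPlaneSet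
  have hzero := hAn.eqOn_zero_of_preconnected_of_eventuallyEq_zero
    (Convex.isPreconnected (convex_halfSpace_im_gt 0)) hz₀ hev
  funext τ
  have := hzero τ.im_pos
  simpa [ofComplex_apply] using this

/-- If a holomorphic function on the upper half plane vanishes near a point, it vanishes
identically. -/
theorem eq_zero_of_eventually (d : ℍ → ℂ) (hd : MDiff d) (τ₀ : ℍ)
    (h : ∀ᶠ τ in 𝓝 τ₀, d τ = 0) : d = 0 := by
  have hcont : ContinuousAt ofComplex (τ₀ : ℂ) :=
    (mdifferentiableAt_ofComplex τ₀.im_pos).continuousAt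
  have hev : ∀ᶠ z in 𝓝 (τ₀ : ℂ), (d ∘ ofComplex) z = 0 := by
    have h' : ∀ᶠ τ in 𝓝 (ofComplex (τ₀ : ℂ)), d τ = 0 := by rwa [ofComplex_apply]
    exact hcont.eventually h'
  exact eq_zero_of_eventually' d hd τ₀ τ₀.im_pos hev

/-- A continuous function vanishing wherever a nonzero holomorphic function does not vanish
is zero. -/
theorem eq_zero_of_forall_ne (d u : ℍ → ℂ) (hd : MDiff d) (hd0 : d ≠ 0) (hu : Continuous u)
    (h : ∀ τ, d τ ≠ 0 → u τ = 0) : u = 0 := by
  by_contra hne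
  obtain ⟨τ₀, hτ₀⟩ : ∃ τ₀, u τ₀ ≠ 0 := by
    by_contra hcon
    push Not at hcon
    exact hne (funext hcon)
  have hev : ∀ᶠ τ in 𝓝 τ₀, u τ ≠ 0 := hu.continuousAt.eventually_ne hτ₀
  refine hd0 (eq_zero_of_eventually d hd τ₀ ?_)
  filter_upwards [hev] with τ hτ
  by_contra hdτ
  exact hτ (h τ hdτ)

end Holo

/-- Cancellation of a nonzero holomorphic factor between continuous functions. -/
theorem eq_of_mul_eq_mul (d h₁ h₂ : ℍ → ℂ) (hd : MDiff d) (hd0 : d ≠ 0) (h1 : Continuous h₁)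
    (h2 : Continuous h₂) (h : ∀ τ, h₁ τ * d τ = h₂ τ * d τ) : h₁ = h₂ := by
  have hz : (fun τ => h₁ τ - h₂ τ) = 0 := by
    refine Holo.eq_zero_of_forall_ne d _ hd hd0 (h1.sub h2) fun τ hτ => ?_
    have := h τ
    exact sub_eq_zero.mpr (mul_right_cancel₀ hτ this)
  funext τ
  exact sub_eq_zero.mp (congrFun hz τ)

/-- **Holomorphy from integrality**: if `g / d` is a root of a monic polynomial with continuous
coefficients, then `g / d` extends to a holomorphic function on the upper half plane. -/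
theorem exists_holo_quotient (μ : ℕ) (a : ℕ → ℍ → ℂ) (g d : ℍ → ℂ) (hg : MDiff g) (hd : MDiff d)
    (hd0 : d ≠ 0) (ha : ∀ i, Continuous (a i)) (ha0 : a 0 = 1)
    (heq : ∀ τ, ∑ i ∈ Finset.range (μ + 1), a i τ * d τ ^ i * g τ ^ (μ - i) = 0) :
    ∃ h : ℍ → ℂ, MDiff h ∧ (∀ τ, h τ * d τ = g τ) ∧
      ∀ τ, ∑ i ∈ Finset.range (μ + 1), a i τ * h τ ^ (μ - i) = 0 := by
  classical
  set G : ℂ → ℂ := g ∘ ofComplex with hG
  set D : ℂ → ℂ := d ∘ ofComplex with hD
  have hGd : DifferentiableOn ℂ G upperHalfPlaneSet := mdifferentiable_iff.mp hg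
  have hDd : DifferentiableOn ℂ D upperHalfPlaneSet := mdifferentiable_iff.mp hd
  have hGat : ∀ z ∈ upperHalfPlaneSet, DifferentiableAt ℂ G z := fun z hz =>
    hGd.differentiableAt (isOpen_upperHalfPlaneSet.mem_nhds hz)
  have hDat : ∀ z ∈ upperHalfPlaneSet, DifferentiableAt ℂ D z := fun z hz =>
    hDd.differentiableAt (isOpen_upperHalfPlaneSet.mem_nhds hz)
  have hGval : ∀ τ : ℍ, G τ = g τ := fun τ => by simp [hG]
  have hDval : ∀ τ : ℍ, D τ = d τ := fun τ => by simp [hD]
  -- the degree is positive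
  have hμ : 1 ≤ μ := by
    by_contra hcon
    have h0 : μ = 0 := by omega
    subst h0
    have := heq UpperHalfPlane.I
    simp [ha0] at this
  -- `g` vanishes at the zeros of `d`
  have hg0 : ∀ τ, d τ = 0 → g τ = 0 := by
    intro τ hτ
    have h1 := heq τ
    rw [Finset.sum_eq_single 0] at h1
    · simp only [ha0, Pi.one_apply, pow_zero, mul_one, one_mul, Nat.sub_zero] at h1
      exact pow_eq_zero_iff (by omega) |>.mp h1
    · intro i _ hi
      simp [hτ, hi]
    · intro h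
      simp at h
  -- the root equation away from the zeros of `d`
  have hroot : ∀ τ, d τ ≠ 0 →
      ∑ i ∈ Finset.range (μ + 1), a i τ * (g τ / d τ) ^ (μ - i) = 0 := by
    intro τ hτ
    have h1 : (∑ i ∈ Finset.range (μ + 1), a i τ * (g τ / d τ) ^ (μ - i)) * d τ ^ μ = 0 := by
      rw [← heq τ, Finset.sum_mul]
      refine Finset.sum_congr rfl fun i hi => ?_
      have hi' : i ≤ μ := Nat.lt_succ_iff.mp (Finset.mem_range.mp hi)
      have hpow : d τ ^ μ = d τ ^ i * d τ ^ (μ - i) := by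
        rw [← pow_add]
        congr 1
        omega
      rw [hpow, div_pow]
      field_simp
    exact (mul_eq_zero.mp h1).resolve_right (pow_ne_zero _ hτ)
  set f : ℂ → ℂ := fun z => G z / D z with hf
  set H : ℂ → ℂ := fun z => Filter.limUnder (𝓝[≠] z) f with hH
  have hfat : ∀ z ∈ upperHalfPlaneSet, D z ≠ 0 → DifferentiableAt ℂ f z := fun z hz hDz =>
    (hGat z hz).div (hDat z hz) hDz
  have hHf : ∀ z ∈ upperHalfPlaneSet, D z ≠ 0 → H z = f z := by
    intro z hz hDz
    exact ((hfat z hz hDz).continuousAt.tendsto.mono_left nhdsWithin_le_nhds).limUnder_eq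
  -- zeros of `D` are isolated
  have hDiso : ∀ z₀ ∈ upperHalfPlaneSet, ∀ᶠ z in 𝓝[≠] z₀, D z ≠ 0 := by
    intro z₀ hz₀
    have hAn : AnalyticAt ℂ D z₀ := (hDd.analyticOnNhd isOpen_upperHalfPlaneSet) z₀ hz₀
    rcases hAn.eventually_eq_zero_or_eventually_ne_zero with h | h
    · exact absurd (Holo.eq_zero_of_eventually' d hd z₀ hz₀ h) hd0
    · exact h
  -- local analysis: `H` is differentiable at every point of the upper half plane
  have hloc : ∀ z₀ ∈ upperHalfPlaneSet, DifferentiableAt ℂ H z₀ := by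
    intro z₀ hz₀
    set A : ℕ → ℂ → ℂ := fun i => a i ∘ ofComplex with hA
    have hAc : ∀ i, ContinuousAt (A i) z₀ := fun i =>
      ((ha i).continuousAt).comp (mdifferentiableAt_ofComplex hz₀).continuousAt
    set C : ℝ := max 1 (∑ i ∈ Finset.Icc 1 μ, (‖A i z₀‖ + 1)) with hC
    have hev1 : ∀ᶠ z in 𝓝 z₀, ∀ i ∈ Finset.Icc 1 μ, ‖A i z‖ < ‖A i z₀‖ + 1 := by
      rw [Filter.eventually_all_finset]
      intro i _
      exact ((hAc i).norm).eventually_lt_const (lt_add_one _)
    have hev2 : ∀ᶠ z in 𝓝 z₀, z ∈ upperHalfPlaneSet := isOpen_upperHalfPlaneSet.mem_nhds hz₀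
    have hev3 : ∀ᶠ z in 𝓝 z₀, z ≠ z₀ → D z ≠ 0 := by
      have := eventually_nhdsWithin_iff.mp (hDiso z₀ hz₀)
      filter_upwards [this] with z hz hne
      exact hz hne
    obtain ⟨s, hsub, hsopen, hz₀s⟩ := eventually_nhds_iff.mp (hev1.and (hev2.and hev3))
    have hbd : ∀ z ∈ s \ {z₀}, ‖f z‖ ≤ C := by
      rintro z ⟨hzs, hzne⟩
      obtain ⟨h1, h2, h3⟩ := hsub z hzs
      have hDz : D z ≠ 0 := h3 hzne
      have hGz : G z = g ⟨z, h2⟩ := comp_ofComplex_of_im_pos g z h2
      have hDz' : D z = d ⟨z, h2⟩ := comp_ofComplex_of_im_pos d z h2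
      have hr := hroot ⟨z, h2⟩ (by rw [← hDz']; exact hDz)
      have hr' : ∑ i ∈ Finset.range (μ + 1), (fun i => A i z) i * f z ^ (μ - i) = 0 := by
        rw [← hr]
        refine Finset.sum_congr rfl fun i _ => ?_
        have hAz : A i z = a i ⟨z, h2⟩ := comp_ofComplex_of_im_pos (a i) z h2
        simp only [hAz, hf, hGz, hDz']
      have hA0 : (fun i => A i z) 0 = 1 := by
        have hAz : A 0 z = a 0 ⟨z, h2⟩ := comp_ofComplex_of_im_pos (a 0) z h2
        simp [hAz, ha0]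
      have hle := root_norm_le μ (fun i => A i z) (f z) hA0 hr'
      exact hle.trans (max_le_max le_rfl (Finset.sum_le_sum fun i hi => (h1 i hi).le))
    have hdiff : DifferentiableOn ℂ (Function.update f z₀ (Filter.limUnder (𝓝[≠] z₀) f)) s := by
      refine Complex.differentiableOn_update_limUnder_of_bddAbove (hsopen.mem_nhds hz₀s) ?_ ?_
      · intro z hz
        obtain ⟨h1, h2, h3⟩ := hsub z hz.1
        exact (hfat z h2 (h3 hz.2)).differentiableWithinAt
      · refine ⟨C, ?_⟩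
        rintro _ ⟨z, hz, rfl⟩
        exact hbd z hz
    have hHeq : ∀ z ∈ s, H z = Function.update f z₀ (Filter.limUnder (𝓝[≠] z₀) f) z := by
      intro z hz
      by_cases hzz : z = z₀
      · subst hzz
        simp [hH]
      · rw [Function.update_of_ne hzz]
        obtain ⟨h1, h2, h3⟩ := hsub z hz
        exact hHf z h2 (h3 hzz)
    have hdat : DifferentiableAt ℂ (Function.update f z₀ (Filter.limUnder (𝓝[≠] z₀) f)) z₀ :=
      hdiff.differentiableAt (hsopen.mem_nhds hz₀s)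
    refine hdat.congr_of_eventuallyEq ?_
    filter_upwards [hsopen.mem_nhds hz₀s] with z hz using hHeq z hz
  have hHd : DifferentiableOn ℂ H upperHalfPlaneSet := fun z hz =>
    (hloc z hz).differentiableWithinAt
  have hMD : MDiff (fun τ : ℍ => H τ) := by
    rw [UpperHalfPlane.mdifferentiable_iff]
    refine hHd.congr fun z hz => ?_
    simp [Function.comp, ofComplex_apply_of_im_pos hz]
  have hquot : ∀ τ : ℍ, d τ ≠ 0 → H τ = g τ / d τ := by
    intro τ hτ
    have h1 : H τ = f τ := hHf τ τ.im_pos (by rw [hDval]; exact hτ)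
    rw [h1]
    simp only [hf, hGval, hDval]
  refine ⟨fun τ => H τ, hMD, ?_, ?_⟩
  · intro τ
    by_cases hdτ : d τ = 0
    · rw [hdτ, mul_zero, hg0 τ hdτ]
    · change H τ * d τ = g τ
      rw [hquot τ hdτ]
      field_simp
  · have hcontH : Continuous (fun τ : ℍ => H τ) := hMD.continuous
    have hcont : Continuous (fun τ : ℍ => ∑ i ∈ Finset.range (μ + 1), a i τ * H τ ^ (μ - i)) :=
      continuous_finsetSum _ fun i _ => (ha i).mul (hcontH.pow _)
    have hz := Holo.eq_zero_of_forall_ne d _ hd hd0 hcont fun τ hτ => by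
      simp only [hquot τ hτ]
      exact hroot τ hτ
    intro τ
    exact congrFun hz τ

end Fermat.Agent.S23
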