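import Mathlib
import Fermat.Agent.S23.Holo

/-!
S23, end game of the Galois-conjugation argument (module N3):

a holomorphic function `h` on the upper half plane which is `Γ₀(N)`-invariant of weight `k`
(e.g. because `h * d = g` for modular forms `d ≠ 0`, `g`) and which satisfies a monic polynomial
relation `∑ i, a i * h ^ (μ - i) = 0` whose coefficients `a i` are level-one invariant of weight
`i * k` and vanish at `i∞` for `i ≥ 1`, is a cusp form of weight `k` on `Γ₀(N)`.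
-/

set_option autoImplicit false

open UpperHalfPlane ModularForm CongruenceSubgroup SlashInvariantForm Filter
open scoped MatrixGroups ModularForm Manifold Topology

namespace Fermat.Agent.S23.CuspOfRel

/-- Slash invariance of a quotient: if `h * d = g` with `d ≠ 0` holomorphic and `d`, `g`
invariant under `γ` (weights `w`, `k + w`), then `h` is invariant under `γ` (weight `k`). -/
theorem slash_eq_of_mul_eq (k w : ℤ) (h d g : ℍ → ℂ) (hh : MDiff h) (hd : MDiff d)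
    (hd0 : d ≠ 0) (hmul : ∀ τ, h τ * d τ = g τ) (γ : SL(2, ℤ)) (hdγ : d ∣[w] γ = d)
    (hgγ : g ∣[k + w] γ = g) : h ∣[k] γ = h := by
  have hg : g = h * d := by
    funext τ
    simp [hmul]
  have h1 : (h ∣[k] γ) * d = h * d := by
    calc (h ∣[k] γ) * d = (h ∣[k] γ) * (d ∣[w] γ) := by rw [hdγ]
      _ = (h * d) ∣[k + w] γ := (mul_slash_SL2 k w γ h d).symm
      _ = h * d := by rw [← hg, hgγ]
  have hcont : Continuous (h ∣[k] γ) := by
    have : MDiff (h ∣[k] (γ : GL (Fin 2) ℝ)) := hh.slash k _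
    exact this.continuous
  exact eq_of_mul_eq_mul d (h ∣[k] γ) h hd hd0 hcont hh.continuous (fun τ => congrFun h1 τ)

/-- A monic relation with level-one invariant coefficients is preserved by slashing the
root. -/
theorem rel_slash (k : ℤ) (h : ℍ → ℂ) (μ : ℕ) (a : ℕ → ℍ → ℂ) (γ : SL(2, ℤ))
    (ha_inv : ∀ i, i ≤ μ → a i ∣[(i : ℤ) * k] γ = a i)
    (hrel : ∀ τ, ∑ i ∈ Finset.range (μ + 1), a i τ * h τ ^ (μ - i) = 0) (τ : ℍ) :
    ∑ i ∈ Finset.range (μ + 1), a i τ * (h ∣[k] γ) τ ^ (μ - i) = 0 := by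
  have hj : denom γ τ ≠ 0 := denom_ne_zero γ τ
  have key : ∀ i ∈ Finset.range (μ + 1), a i τ * (h ∣[k] γ) τ ^ (μ - i)
      = (a i (γ • τ) * h (γ • τ) ^ (μ - i)) * denom γ τ ^ (-((μ : ℤ) * k)) := by
    intro i hi
    have hi' : i ≤ μ := Nat.lt_succ_iff.mp (Finset.mem_range.mp hi)
    have h1 : a i τ = a i (γ • τ) * denom γ τ ^ (-((i : ℤ) * k)) := by
      conv_lhs => rw [← ha_inv i hi']
      rw [SL_slash_apply]
    have h2 : (h ∣[k] γ) τ = h (γ • τ) * denom γ τ ^ (-k) := SL_slash_apply ..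
    rw [h1, h2, mul_pow]
    have h3 : (denom γ τ ^ (-k)) ^ (μ - i) = denom γ τ ^ (-(((μ - i : ℕ) : ℤ) * k)) := by
      rw [← zpow_natCast, ← zpow_mul]
      congr 1
      ring
    have h4 : denom γ τ ^ (-((i : ℤ) * k)) * denom γ τ ^ (-(((μ - i : ℕ) : ℤ) * k))
        = denom γ τ ^ (-((μ : ℤ) * k)) := by
      rw [← zpow_add₀ hj]
      congr 1
      push_cast [Nat.cast_sub hi']
      ring
    rw [h3]
    calc a i (γ • τ) * denom γ τ ^ (-((i : ℤ) * k))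
          * (h (γ • τ) ^ (μ - i) * denom γ τ ^ (-(((μ - i : ℕ) : ℤ) * k)))
        = a i (γ • τ) * h (γ • τ) ^ (μ - i) * (denom γ τ ^ (-((i : ℤ) * k))
          * denom γ τ ^ (-(((μ - i : ℕ) : ℤ) * k))) := by ring
      _ = _ := by rw [h4]
  rw [Finset.sum_congr rfl key, ← Finset.sum_mul, hrel (γ • τ), zero_mul]

/-- A root of a monic polynomial whose lower coefficients tend to `0` at `i∞` tends to `0`
at `i∞`. -/
theorem isZeroAtImInfty_of_rel (μ : ℕ) (a : ℕ → ℍ → ℂ) (y : ℍ → ℂ) (ha0 : a 0 = 1)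
    (ha_zero : ∀ i, 1 ≤ i → i ≤ μ → IsZeroAtImInfty (a i))
    (hrel : ∀ τ, ∑ i ∈ Finset.range (μ + 1), a i τ * y τ ^ (μ - i) = 0) :
    IsZeroAtImInfty y := by
  have hμ : μ ≠ 0 := by
    rintro rfl
    have := hrel UpperHalfPlane.I
    simp [ha0] at this
  set ε : ℍ → ℝ := fun τ => ∑ i ∈ Finset.Icc 1 μ, ‖a i τ‖ with hεdef
  have hε : Tendsto ε atImInfty (𝓝 0) := by
    have : Tendsto ε atImInfty (𝓝 (∑ _i ∈ Finset.Icc 1 μ, (0 : ℝ))) := by
      refine tendsto_finsetSum _ fun i hi => ?_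
      have hi' := Finset.mem_Icc.mp hi
      have := (ha_zero i hi'.1 hi'.2)
      rw [IsZeroAtImInfty, ZeroAtFilter] at this
      simpa using this.norm
    simpa using this
  have claim : ∀ τ, ε τ ≤ 1 → ‖y τ‖ ^ μ ≤ ε τ := by
    intro τ hτ
    have hy1 : ‖y τ‖ ≤ 1 := by
      have := root_norm_le μ (fun i => a i τ) (y τ) (by simp [ha0]) (hrel τ)
      exact this.trans (max_le le_rfl hτ)
    have hsplit : ∑ i ∈ Finset.range (μ + 1), a i τ * y τ ^ (μ - i)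
        = y τ ^ μ + ∑ i ∈ Finset.Icc 1 μ, a i τ * y τ ^ (μ - i) := by
      rw [Finset.range_eq_Ico, Finset.sum_eq_sum_Ico_succ_bot (Nat.succ_pos μ)]
      simp only [ha0, Pi.one_apply, one_mul, Nat.sub_zero, zero_add]
      rfl
    have hy_eq : y τ ^ μ = - ∑ i ∈ Finset.Icc 1 μ, a i τ * y τ ^ (μ - i) := by
      have := hrel τ
      rw [hsplit] at this
      exact eq_neg_of_add_eq_zero_left this
    calc ‖y τ‖ ^ μ = ‖y τ ^ μ‖ := (norm_pow _ _).symm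
      _ = ‖∑ i ∈ Finset.Icc 1 μ, a i τ * y τ ^ (μ - i)‖ := by rw [hy_eq, norm_neg]
      _ ≤ ∑ i ∈ Finset.Icc 1 μ, ‖a i τ * y τ ^ (μ - i)‖ := norm_sum_le _ _
      _ ≤ ∑ i ∈ Finset.Icc 1 μ, ‖a i τ‖ := by
          refine Finset.sum_le_sum fun i _ => ?_
          rw [norm_mul, norm_pow]
          exact mul_le_of_le_one_right (norm_nonneg _) (pow_le_one₀ (norm_nonneg _) hy1)
  rw [IsZeroAtImInfty, ZeroAtFilter, tendsto_zero_iff_norm_tendsto_zero, Metric.tendsto_nhds]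
  intro δ hδ
  set δ' := min δ 1 with hδ'def
  have hδ' : 0 < δ' := lt_min hδ one_pos
  have hev : ∀ᶠ τ in atImInfty, ε τ < δ' ^ μ := (tendsto_order.1 hε).2 _ (pow_pos hδ' μ)
  filter_upwards [hev] with τ hτ
  have hε1 : ε τ ≤ 1 := hτ.le.trans (pow_le_one₀ hδ'.le (min_le_right _ _))
  have h1 : ‖y τ‖ ^ μ < δ' ^ μ := (claim τ hε1).trans_lt hτ
  have h2 : ‖y τ‖ < δ' := lt_of_pow_lt_pow_left₀ μ hδ'.le h1
  have h3 : ‖y τ‖ < δ := h2.trans_le (min_le_left _ _)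
  simpa using h3

/-- **End game.** A holomorphic `Γ₀(N)`-invariant function of weight `k` satisfying a monic
relation with level-one coefficients vanishing at `i∞` is a cusp form. -/
theorem exists_cuspForm (N : ℕ) [NeZero N] (k : ℤ) (h : ℍ → ℂ) (hh : MDiff h)
    (hinv : ∀ γ ∈ Gamma0 N, h ∣[k] γ = h)
    (μ : ℕ) (a : ℕ → ℍ → ℂ) (ha0 : a 0 = 1)
    (ha_inv : ∀ i, i ≤ μ → ∀ γ : SL(2, ℤ), a i ∣[(i : ℤ) * k] γ = a i)
    (ha_zero : ∀ i, 1 ≤ i → i ≤ μ → IsZeroAtImInfty (a i))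
    (hrel : ∀ τ, ∑ i ∈ Finset.range (μ + 1), a i τ * h τ ^ (μ - i) = 0) :
    ∃ f' : CuspForm (Gamma0 N) k, (f' : ℍ → ℂ) = h := by
  refine ⟨{ toFun := h, slash_action_eq' := ?_, holo' := hh, zero_at_cusps' := ?_ }, rfl⟩
  · rintro γ ⟨γ', hγ', rfl⟩
    exact hinv γ' hγ'
  · intro c hc
    have hc' : IsCusp c 𝒮ℒ := (Subgroup.IsArithmetic.isCusp_iff_isCusp_SL2Z _).mp hc
    rw [OnePoint.isZeroAt_iff_forall_SL2Z hc']
    intro γ _
    exact isZeroAtImInfty_of_rel μ a (h ∣[k] γ) ha0 ha_zero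
      (rel_slash k h μ a γ (fun i hi => ha_inv i hi γ) hrel)

/-- **End game, packaged.** If `h * d = g` with `d ≠ 0`, `d` and `g` invariant under
`Γ₀(N)` (weights `w`, `k + w`), and `h` satisfies a monic relation with level-one coefficients
vanishing at `i∞`, then `h` is a cusp form of weight `k` on `Γ₀(N)`. -/
theorem exists_cuspForm_of_mul_eq (N : ℕ) [NeZero N] (k w : ℤ) (h d g : ℍ → ℂ) (hh : MDiff h)
    (hd : MDiff d) (hd0 : d ≠ 0) (hmul : ∀ τ, h τ * d τ = g τ)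
    (hdinv : ∀ γ ∈ Gamma0 N, d ∣[w] γ = d) (hginv : ∀ γ ∈ Gamma0 N, g ∣[k + w] γ = g)
    (μ : ℕ) (a : ℕ → ℍ → ℂ) (ha0 : a 0 = 1)
    (ha_inv : ∀ i, i ≤ μ → ∀ γ : SL(2, ℤ), a i ∣[(i : ℤ) * k] γ = a i)
    (ha_zero : ∀ i, 1 ≤ i → i ≤ μ → IsZeroAtImInfty (a i))
    (hrel : ∀ τ, ∑ i ∈ Finset.range (μ + 1), a i τ * h τ ^ (μ - i) = 0) :
    ∃ f' : CuspForm (Gamma0 N) k, (f' : ℍ → ℂ) = h :=
  exists_cuspForm N k h hh
    (fun γ hγ => slash_eq_of_mul_eq k w h d g hh hd hd0 hmul γ (hdinv γ hγ) (hginv γ hγ))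
    μ a ha0 ha_inv ha_zero hrel

/-- The `q`-expansion of a quotient: if `f' * d = g`, the `q`-expansion of `d` is nonzero and
the `q`-expansion of `g` is `P` times that of `d`, then the `q`-expansion of `f'` is `P`. -/
theorem qExpansion_eq_of_mul_eq (N : ℕ) (k : ℤ) (f' : CuspForm (Gamma0 N) k) (d g : ℍ → ℂ)
    (hdan : AnalyticAt ℂ (cuspFunction 1 d) 0) (hmul : ∀ τ, f' τ * d τ = g τ)
    (P : PowerSeries ℂ) (hD : qExpansion 1 d ≠ 0) (hG : qExpansion 1 g = P * qExpansion 1 d) :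
    qExpansion 1 f' = P := by
  have hsp : (1 : ℝ) ∈ (Subgroup.map (Matrix.SpecialLinearGroup.mapGL ℝ)
      (Gamma0 N)).strictPeriods := by simp
  have hfan : AnalyticAt ℂ (cuspFunction 1 f') 0 :=
    ModularFormClass.analyticAt_cuspFunction_zero f' one_pos hsp
  have hg : g = (f' : ℍ → ℂ) * d := by
    funext τ
    simp [hmul]
  have h1 : qExpansion 1 g = qExpansion 1 f' * qExpansion 1 d := by
    rw [hg, qExpansion_mul hfan hdan]
  exact mul_right_cancel₀ hD (h1.symm.trans hG)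

end Fermat.Agent.S23.CuspOfRel

namespace Fermat.Agent.S23

/-- Interface statement of the end game of N3 (exact shape requested by the N3 owner). -/
theorem cuspForm_of_rel (N : ℕ) [NeZero N] (k w : ℤ) (μ : ℕ) (a : ℕ → ℍ → ℂ) (d g h : ℍ → ℂ)
    (ha0 : a 0 = 1)
    (haS : ∀ (i : ℕ) (γ : SL(2, ℤ)), a i ∣[(i : ℤ) * k] γ = a i)
    (haz : ∀ i : ℕ, 0 < i → IsZeroAtImInfty (a i))
    (hd : MDiff d) (hd0 : d ≠ 0)
    (hdΓ : ∀ γ : SL(2, ℤ), γ ∈ Gamma0 N → d ∣[w] γ = d)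
    (hgΓ : ∀ γ : SL(2, ℤ), γ ∈ Gamma0 N → g ∣[w + k] γ = g)
    (hh : MDiff h) (hmul : ∀ τ, h τ * d τ = g τ)
    (hrel : ∀ τ, ∑ i ∈ Finset.range (μ + 1), a i τ * h τ ^ (μ - i) = 0) :
    ∃ f' : CuspForm (Gamma0 N) k, (f' : ℍ → ℂ) = h :=
  CuspOfRel.exists_cuspForm_of_mul_eq N k w h d g hh hd hd0 hmul hdΓ
    (fun γ hγ => by rw [add_comm]; exact hgΓ γ hγ) μ a ha0 (fun i _ γ => haS i γ)
    (fun i hi _ => haz i hi) hrel

end Fermat.Agent.S23
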