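import Mathlib
import Fermat.Agent.S22.Defs
import Fermat.Agent.S22.ConjDef
import Fermat.Agent.S22.ConjQExp
import Fermat.Agent.S22.Esymm
import Fermat.Agent.S23.Holo

/-!
# N3 helper: the resolvent denominator `∏_{q ≠ q₀} (x - x_q)` is not identically zero
-/

set_option autoImplicit false

namespace Fermat.Agent.S23

open UpperHalfPlane ModularForm CongruenceSubgroup SlashInvariantForm
open scoped MatrixGroups ModularForm Manifold
open Fermat.Agent.S22

namespace ResNZ

/-- A finite product of holomorphic functions on `ℍ`, none identically zero, is holomorphic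
and not identically zero. -/
theorem prod_mdiff_ne_zero {ι : Type*} (s : Finset ι) (F : ι → ℍ → ℂ)
    (hF : ∀ i ∈ s, MDiff (F i)) (hF0 : ∀ i ∈ s, F i ≠ 0) :
    MDiff (fun τ : ℍ => ∏ i ∈ s, F i τ) ∧ (fun τ : ℍ => ∏ i ∈ s, F i τ) ≠ 0 := by
  classical
  induction s using Finset.induction_on with
  | empty =>
    refine ⟨by simpa using (mdifferentiable_const (c := (1 : ℂ))), fun h => ?_⟩
    have := congrFun h UpperHalfPlane.I
    simp at this
  | insert a s ha ih =>
    obtain ⟨ih1, ih2⟩ := ih (fun i hi => hF i (Finset.mem_insert_of_mem hi))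
      (fun i hi => hF0 i (Finset.mem_insert_of_mem hi))
    have hFa := hF a (Finset.mem_insert_self a s)
    have hFa0 := hF0 a (Finset.mem_insert_self a s)
    have hEq : (fun τ : ℍ => ∏ i ∈ insert a s, F i τ) =
        F a * fun τ : ℍ => ∏ i ∈ s, F i τ := by
      funext τ
      rw [Finset.prod_insert ha, Pi.mul_apply]
    rw [hEq]
    refine ⟨hFa.mul ih1, fun h => ih2 ?_⟩
    refine Holo.eq_zero_of_forall_ne (F a) _ hFa hFa0 ih1.continuous fun τ hτ => ?_
    have := congrFun h τ
    rw [Pi.mul_apply, Pi.zero_apply] at this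
    exact (mul_eq_zero.mp this).resolve_left hτ

end ResNZ

theorem xForm_sub_slash_ne_zero (N : ℕ) [NeZero N] (γ : SL(2, ℤ)) (hγ : γ ∉ Gamma0 N) :
    (xForm N : ℍ → ℂ) - (xForm N : ℍ → ℂ) ∣[(12 : ℤ)] γ ≠ 0 := by
  intro h0
  obtain ⟨C, e, U, hC, hU, hq⟩ := qExpansion_xForm_sub_slash N γ hγ
  rw [h0, qExpansion_zero] at hq
  have h1 := congrArg (PowerSeries.coeff e) hq
  rw [map_zero, PowerSeries.coeff_smul, PowerSeries.coeff_X_pow_mul', if_pos le_rfl,
    Nat.sub_self, PowerSeries.coeff_map, PowerSeries.coeff_zero_eq_constantCoeff_apply, hU,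
    map_one, smul_eq_mul, mul_one] at h1
  exact hC h1.symm

theorem resolventDen_ne_zero (N : ℕ) [NeZero N] :
    (fun τ : ℍ => ∏ q ∈ (Finset.univ : Finset (Q N)).erase (q0 N),
      (xForm N τ - quotientFunc (xForm N) q τ)) ≠ 0 := by
  refine (ResNZ.prod_mdiff_ne_zero ((Finset.univ : Finset (Q N)).erase (q0 N))
    (fun q τ => xForm N τ - quotientFunc (xForm N) q τ) (fun q _ => ?_) (fun q hq => ?_)).2
  · exact (xForm N).holo'.sub (Esymm.mdiff_quotientFunc (xForm N) q)
  · obtain ⟨γ, hγ, hqγ⟩ := quotientFunc_of_ne_q0 (xForm N) q (Finset.ne_of_mem_erase hq)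
    have := xForm_sub_slash_ne_zero N γ hγ
    rw [← hqγ] at this
    exact this

end Fermat.Agent.S23
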