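import Mathlib
import Fermat.Agent.S22.Defs
import Fermat.Agent.S22.LevelOne
import Fermat.Agent.S22.ConjDef
import Fermat.Agent.S22.ConjQExp
import Fermat.Agent.S22.Esymm
import Fermat.Agent.S22.LagAlg
import Fermat.Agent.S23.Holo
import Fermat.Agent.S23.CuspOfRel
import Fermat.Agent.S23.ResNZ

/-!
# Galois conjugation of cusp forms on `Γ₀(N)` (module N3 of the S23 blueprint)

For `σ ∈ Aut(ℂ)` and a cusp form `f` on `Γ₀(N)` of weight `k`, the `σ`-conjugate of the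
`q`-expansion of `f` is again the `q`-expansion of a cusp form on `Γ₀(N)` of weight `k`.

Proof: with `x = N^11 Δ(Nτ)` and `D = ∏_{q ≠ q₀} (x - x_q)` (the product over the nontrivial
cosets of `SL(2,ℤ)/Γ₀(N)`), Lagrange interpolation expresses `D` and `f D` as polynomials in `x`
whose coefficients are level one modular forms; level one forms and `x` have `σ`-conjugates, so
`D` and `f D` have `σ`-conjugates `Dσ`, `Gσ`; the conjugated characteristic polynomial of `f`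
shows that `Gσ / Dσ` is integral over the level one forms, hence holomorphic, invariant under
`Γ₀(N)` and vanishing at all cusps.
-/

set_option autoImplicit false

namespace Fermat.Agent.S23

open UpperHalfPlane ModularForm CongruenceSubgroup SlashInvariantForm
open scoped MatrixGroups ModularForm Manifold
open Fermat.Agent.S22


namespace GaloisConj

/-- The class of `1`-periodic holomorphic functions on `ℍ` bounded at `i∞`. -/
structure Nice (φ : ℍ → ℂ) : Prop where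
  mdiff : MDiff φ
  per : Function.Periodic (φ ∘ ofComplex) 1
  bdd : IsBoundedAtImInfty φ

theorem Nice.analytic {φ : ℍ → ℂ} (h : Nice φ) : AnalyticAt ℂ (cuspFunction 1 φ) 0 :=
  analyticAt_cuspFunction_zero one_pos h.per h.mdiff h.bdd

theorem Nice.of_form {Γ : Subgroup (GL (Fin 2) ℝ)} {K : ℤ} {F : Type*} [FunLike F ℍ ℂ]
    [ModularFormClass F Γ K] (hΓ : (1 : ℝ) ∈ Γ.strictPeriods) (g : F) : Nice (g : ℍ → ℂ) :=
  have : Fact (IsCusp OnePoint.infty Γ) := ⟨Γ.isCusp_of_mem_strictPeriods one_pos hΓ⟩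
  ⟨ModularFormClass.holo g, SlashInvariantFormClass.periodic_comp_ofComplex g hΓ,
    ModularFormClass.bdd_at_infty g⟩

theorem Nice.add {φ ψ : ℍ → ℂ} (h1 : Nice φ) (h2 : Nice ψ) : Nice (φ + ψ) :=
  ⟨h1.mdiff.add h2.mdiff, h1.per.add h2.per, h1.bdd.add h2.bdd⟩

theorem Nice.mul {φ ψ : ℍ → ℂ} (h1 : Nice φ) (h2 : Nice ψ) : Nice (φ * ψ) :=
  ⟨h1.mdiff.mul h2.mdiff, h1.per.mul h2.per, h1.bdd.mul h2.bdd⟩

theorem Nice.one : Nice (1 : ℍ → ℂ) :=
  ⟨mdifferentiable_const, fun _ => rfl, Filter.const_boundedAtFilter _ _⟩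

theorem Nice.zero : Nice (0 : ℍ → ℂ) :=
  ⟨mdifferentiable_const, fun _ => rfl, Filter.const_boundedAtFilter _ _⟩

theorem Nice.smul {φ : ℍ → ℂ} (c : ℂ) (h1 : Nice φ) : Nice (c • φ) :=
  ⟨h1.mdiff.const_smul c, fun z => by
    have := h1.per z
    simp only [Function.comp_apply, Pi.smul_apply] at this ⊢
    rw [this], h1.bdd.const_smul_left c⟩

theorem Nice.pow {φ : ℍ → ℂ} (h1 : Nice φ) (n : ℕ) : Nice (φ ^ n) := by
  induction n with
  | zero => simpa using Nice.one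
  | succ n ih => rw [pow_succ]; exact ih.mul h1

theorem Nice.sum {ι : Type*} (s : Finset ι) (φ : ι → ℍ → ℂ) (h : ∀ i ∈ s, Nice (φ i)) :
    Nice (∑ i ∈ s, φ i) := by
  classical
  induction s using Finset.induction_on with
  | empty => simpa using Nice.zero
  | insert a s ha ih =>
    rw [Finset.sum_insert ha]
    exact (h a (Finset.mem_insert_self a s)).add
      (ih fun i hi => h i (Finset.mem_insert_of_mem hi))

/-- `φ'` is a `σ`-conjugate of `φ`: both are nice and the `q`-expansion of `φ'` is the image under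
`σ` of that of `φ`. -/
def Conj (σ : ℂ ≃+* ℂ) (φ φ' : ℍ → ℂ) : Prop :=
  Nice φ ∧ Nice φ' ∧ qExpansion 1 φ' = (qExpansion 1 φ).map (σ : ℂ →+* ℂ)

variable {σ : ℂ ≃+* ℂ}

theorem Conj.add {φ φ' ψ ψ' : ℍ → ℂ} (h1 : Conj σ φ φ') (h2 : Conj σ ψ ψ') :
    Conj σ (φ + ψ) (φ' + ψ') := by
  refine ⟨h1.1.add h2.1, h1.2.1.add h2.2.1, ?_⟩
  rw [qExpansion_add h1.2.1.analytic h2.2.1.analytic, qExpansion_add h1.1.analytic h2.1.analytic,
    map_add, h1.2.2, h2.2.2]

theorem Conj.mul {φ φ' ψ ψ' : ℍ → ℂ} (h1 : Conj σ φ φ') (h2 : Conj σ ψ ψ') :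
    Conj σ (φ * ψ) (φ' * ψ') := by
  refine ⟨h1.1.mul h2.1, h1.2.1.mul h2.2.1, ?_⟩
  rw [qExpansion_mul h1.2.1.analytic h2.2.1.analytic, qExpansion_mul h1.1.analytic h2.1.analytic,
    map_mul, h1.2.2, h2.2.2]

theorem Conj.one : Conj σ (1 : ℍ → ℂ) 1 := by
  refine ⟨Nice.one, Nice.one, ?_⟩
  rw [qExpansion_one, map_one]

theorem Conj.zero : Conj σ (0 : ℍ → ℂ) 0 := by
  refine ⟨Nice.zero, Nice.zero, ?_⟩
  rw [qExpansion_zero, map_zero]

theorem Conj.smul {φ φ' : ℍ → ℂ} (c : ℂ) (h1 : Conj σ φ φ') : Conj σ (c • φ) (σ c • φ') := by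
  refine ⟨h1.1.smul c, h1.2.1.smul _, ?_⟩
  rw [qExpansion_smul h1.2.1.analytic, qExpansion_smul h1.1.analytic, h1.2.2]
  ext n
  simp

theorem Conj.pow {φ φ' : ℍ → ℂ} (h1 : Conj σ φ φ') (n : ℕ) : Conj σ (φ ^ n) (φ' ^ n) := by
  induction n with
  | zero => simpa using Conj.one
  | succ n ih => rw [pow_succ, pow_succ]; exact ih.mul h1

theorem Conj.sum {ι : Type*} (s : Finset ι) (φ φ' : ι → ℍ → ℂ)
    (h : ∀ i ∈ s, Conj σ (φ i) (φ' i)) : Conj σ (∑ i ∈ s, φ i) (∑ i ∈ s, φ' i) := by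
  classical
  induction s using Finset.induction_on with
  | empty => simpa using Conj.zero
  | insert a s ha ih =>
    rw [Finset.sum_insert ha, Finset.sum_insert ha]
    exact (h a (Finset.mem_insert_self a s)).add
      (ih fun i hi => h i (Finset.mem_insert_of_mem hi))

theorem Conj.eq_zero {φ' : ℍ → ℂ} (h : Conj σ 0 φ') : φ' = 0 := by
  have h2 := h.2.2
  rw [qExpansion_zero, map_zero] at h2
  exact (qExpansion_eq_zero_iff one_pos h.2.1.per h.2.1.mdiff h.2.1.bdd).mp h2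

theorem Conj.ne_zero {φ φ' : ℍ → ℂ} (h : Conj σ φ φ') (h0 : φ ≠ 0) : φ' ≠ 0 := by
  intro h'
  apply h0
  have h2 := h.2.2
  rw [h', qExpansion_zero] at h2
  refine (qExpansion_eq_zero_iff one_pos h.1.per h.1.mdiff h.1.bdd).mp ?_
  ext n
  have h3 := congrArg (PowerSeries.coeff n) h2
  simp only [map_zero, PowerSeries.coeff_map] at h3
  simpa using h3.symm

theorem Conj.qExpansion_ne_zero {φ φ' : ℍ → ℂ} (h : Conj σ φ φ') (h0 : φ ≠ 0) :
    qExpansion 1 φ' ≠ 0 := fun h' =>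
  h.ne_zero h0 ((qExpansion_eq_zero_iff one_pos h.2.1.per h.2.1.mdiff h.2.1.bdd).mp h')

/-- A nice function whose `q`-coefficients are fixed by `σ` is self-conjugate. -/
theorem Conj.self_of_fixed {φ : ℍ → ℂ} (h : Nice φ)
    (hfix : ∀ n, σ ((qExpansion 1 φ).coeff n) = (qExpansion 1 φ).coeff n) : Conj σ φ φ := by
  refine ⟨h, h, ?_⟩
  ext n
  simp [hfix n]

theorem Conj.of_coeff {φ φ' : ℍ → ℂ} (h : Nice φ) (h' : Nice φ')
    (hc : ∀ n, (qExpansion 1 φ').coeff n = σ ((qExpansion 1 φ).coeff n)) : Conj σ φ φ' := by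
  refine ⟨h, h', ?_⟩
  ext n
  simp [hc n]

theorem one_mem_strictPeriods_Gamma0 (N : ℕ) :
    (1 : ℝ) ∈ ((Gamma0 N : Subgroup (GL (Fin 2) ℝ))).strictPeriods := by
  simp

theorem nice_SL {K : ℤ} (g : ModularForm 𝒮ℒ K) : Nice (g : ℍ → ℂ) :=
  Nice.of_form one_mem_strictPeriods_SL g

theorem nice_Gamma0 {N : ℕ} {K : ℤ} (g : ModularForm (Gamma0 N) K) : Nice (g : ℍ → ℂ) :=
  Nice.of_form (one_mem_strictPeriods_Gamma0 N) g

theorem nice_Gamma0_cusp {N : ℕ} {K : ℤ} (g : CuspForm (Gamma0 N) K) : Nice (g : ℍ → ℂ) :=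
  Nice.of_form (one_mem_strictPeriods_Gamma0 N) g

/-! ### Function-level slash invariance -/

/-- Function-level slash invariance of weight `w` under `Γ₀(N)`. -/
def SlInv (N : ℕ) (w : ℤ) (φ : ℍ → ℂ) : Prop :=
  ∀ γ : SL(2, ℤ), γ ∈ Gamma0 N → φ ∣[w] γ = φ

theorem SlInv.mul {N : ℕ} {w₁ w₂ : ℤ} {φ ψ : ℍ → ℂ} (h1 : SlInv N w₁ φ) (h2 : SlInv N w₂ ψ) :
    SlInv N (w₁ + w₂) (φ * ψ) := fun γ hγ => by
  rw [mul_slash_SL2, h1 γ hγ, h2 γ hγ]

theorem SlInv.pow {N : ℕ} {w : ℤ} {φ : ℍ → ℂ} (h : SlInv N w φ) (n : ℕ) :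
    SlInv N ((n : ℤ) * w) (φ ^ n) := fun γ hγ => by
  rw [Esymm.pow_slash_SL2, h γ hγ]

theorem SlInv.smul {N : ℕ} {w : ℤ} {φ : ℍ → ℂ} (c : ℂ) (h : SlInv N w φ) :
    SlInv N w (c • φ) := fun γ hγ => by
  rw [SL_smul_slash, h γ hγ]

theorem SlInv.sum {N : ℕ} {w : ℤ} {ι : Type*} (s : Finset ι) (φ : ι → ℍ → ℂ)
    (h : ∀ i ∈ s, SlInv N w (φ i)) : SlInv N w (∑ i ∈ s, φ i) := fun γ hγ => by
  rw [SlashAction.sum_slash]
  exact Finset.sum_congr rfl fun i hi => h i hi γ hγ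

theorem SlInv.congr {N : ℕ} {w w' : ℤ} {φ : ℍ → ℂ} (h : SlInv N w φ) (hw : w = w') :
    SlInv N w' φ := hw ▸ h

theorem slash_SL {K : ℤ} (g : ModularForm 𝒮ℒ K) (γ : SL(2, ℤ)) : (g : ℍ → ℂ) ∣[K] γ = g := by
  rw [SL_slash]
  exact SlashInvariantForm.slash_action_eqn g _ ⟨γ, rfl⟩

theorem slInv_SL (N : ℕ) {K : ℤ} (g : ModularForm 𝒮ℒ K) : SlInv N K g :=
  fun γ _ => slash_SL g γ

theorem slInv_Gamma0 {N : ℕ} {K : ℤ} (g : ModularForm (Gamma0 N) K) : SlInv N K g := fun γ hγ => by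
  rw [SL_slash]
  exact SlashInvariantForm.slash_action_eqn g _ ⟨γ, hγ, rfl⟩

/-! ### The Lagrange expression and the integrality relation -/

/-- The Lagrange expression `∑_{m,b} (-1)^m e_m t_b X^(μ-1-m-b)`. -/
noncomputable def lag (μ : ℕ) (e t : ℕ → ℍ → ℂ) (X : ℍ → ℂ) : ℍ → ℂ :=
  ∑ m ∈ Finset.range μ, ∑ b ∈ Finset.range (μ - m),
    ((-1 : ℂ) ^ m) • (e m * t b * X ^ (μ - 1 - m - b))

theorem lag_apply (μ : ℕ) (e t : ℕ → ℍ → ℂ) (X : ℍ → ℂ) (τ : ℍ) :
    lag μ e t X τ = ∑ m ∈ Finset.range μ, ∑ b ∈ Finset.range (μ - m),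
      (-1 : ℂ) ^ m * e m τ * t b τ * X τ ^ (μ - 1 - m - b) := by
  simp [lag, Finset.sum_apply, mul_assoc]

theorem Conj.lag {e e' t t' : ℕ → ℍ → ℂ} {X X' : ℍ → ℂ} (he : ∀ m, Conj σ (e m) (e' m))
    (ht : ∀ b, Conj σ (t b) (t' b)) (hX : Conj σ X X') (μ : ℕ) :
    Conj σ (lag μ e t X) (lag μ e' t' X') := by
  unfold GaloisConj.lag
  refine Conj.sum _ _ _ fun m _ => Conj.sum _ _ _ fun b _ => ?_
  have := (((he m).mul (ht b)).mul (hX.pow (μ - 1 - m - b))).smul ((-1 : ℂ) ^ m)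
  simpa using this

theorem SlInv.lag {N : ℕ} {kk : ℤ} {e t : ℕ → ℍ → ℂ} {X : ℍ → ℂ}
    (he : ∀ m : ℕ, SlInv N ((m : ℤ) * 12) (e m)) (ht : ∀ b : ℕ, SlInv N (kk + (b : ℤ) * 12) (t b))
    (hX : SlInv N 12 X) (μ : ℕ) :
    SlInv N (kk + ((μ - 1 : ℕ) : ℤ) * 12) (lag μ e t X) := by
  unfold GaloisConj.lag
  refine SlInv.sum _ _ fun m hm => SlInv.sum _ _ fun b hb => SlInv.smul _ ?_
  refine (((he m).mul (ht b)).mul (hX.pow (μ - 1 - m - b))).congr ?_
  have hm' := Finset.mem_range.mp hm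
  have hb' := Finset.mem_range.mp hb
  have : ((μ - 1 - m - b : ℕ) : ℤ) = ((μ - 1 : ℕ) : ℤ) - m - b := by omega
  rw [this]
  ring

/-- The relation `∑_i a_i d^i g^(μ-i)`. -/
noncomputable def rel (μ : ℕ) (a : ℕ → ℍ → ℂ) (d g : ℍ → ℂ) : ℍ → ℂ :=
  ∑ i ∈ Finset.range (μ + 1), a i * d ^ i * g ^ (μ - i)

theorem rel_apply (μ : ℕ) (a : ℕ → ℍ → ℂ) (d g : ℍ → ℂ) (τ : ℍ) :
    rel μ a d g τ = ∑ i ∈ Finset.range (μ + 1), a i τ * d τ ^ i * g τ ^ (μ - i) := by
  simp [rel, Finset.sum_apply]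

theorem Conj.rel {a a' : ℕ → ℍ → ℂ} {d d' g g' : ℍ → ℂ} (ha : ∀ i, Conj σ (a i) (a' i))
    (hd : Conj σ d d') (hg : Conj σ g g') (μ : ℕ) : Conj σ (rel μ a d g) (rel μ a' d' g') := by
  unfold GaloisConj.rel
  exact Conj.sum _ _ _ fun i _ => ((ha i).mul (hd.pow i)).mul (hg.pow (μ - i))

/-! ### Inputs -/

theorem exists_conj_SL (σ : ℂ ≃+* ℂ) {K : ℤ} (g : ModularForm 𝒮ℒ K) :
    ∃ g' : ModularForm 𝒮ℒ K, Conj σ g g' := by
  obtain ⟨g', hg'⟩ := levelOne_conj σ K g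
  exact ⟨g', Conj.of_coeff (nice_SL g) (nice_SL g') hg'⟩

theorem conj_xForm (N : ℕ) [NeZero N] (σ : ℂ ≃+* ℂ) : Conj σ (xForm N) (xForm N) :=
  Conj.self_of_fixed (nice_Gamma0 _) fun n => by
    obtain ⟨m, hm⟩ := xForm_qExpansion_one_int N n
    rw [hm]
    simp

/-- The resolvent denominator `∏_{q ≠ q₀} (x - x_q)`. -/
noncomputable def den (N : ℕ) [NeZero N] : ℍ → ℂ := fun τ =>
  ∏ q ∈ (Finset.univ : Finset (Q N)).erase (q0 N), (xForm N τ - quotientFunc (xForm N) q τ)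

theorem lagrange_fun {N : ℕ} [NeZero N] {K : ℤ} (g : ModularForm (Gamma0 N) K) (τ : ℍ) :
    g τ * den N τ = lag (Fintype.card (Q N)) (fun m => esymmForm (xForm N) m)
      (fun b => trMulPow (xForm N) b g) (xForm N) τ := by
  rw [lag_apply]
  have := lagrange_alg (q0 N) (fun q => quotientFunc g q τ) (fun q => quotientFunc (xForm N) q τ)
  simp only [quotientFunc_q0] at this
  rw [den, this]
  refine Finset.sum_congr rfl fun m _ => Finset.sum_congr rfl fun b _ => ?_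
  rw [esymmForm_apply, trMulPow_apply]

theorem charpoly_fun {N : ℕ} [NeZero N] {K : ℤ} (g : ModularForm (Gamma0 N) K) (τ : ℍ) :
    ∑ m ∈ Finset.range (Fintype.card (Q N) + 1),
      (-1 : ℂ) ^ m * esymmForm g m τ * g τ ^ (Fintype.card (Q N) - m) = 0 := by
  have := charpoly_alg (q0 N) (fun q => quotientFunc g q τ)
  simp only [quotientFunc_q0] at this
  rw [← this]
  refine Finset.sum_congr rfl fun m _ => ?_
  rw [esymmForm_apply]

theorem tendsto_coeffZero {K : ℤ} (g : ModularForm 𝒮ℒ K) :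
    Filter.Tendsto (fun z : ℍ => g z) atImInfty (nhds ((qExpansion 1 g).coeff 0)) := by
  have han := (nice_SL g).analytic
  have hper := (nice_SL g).per
  have h0 : (qExpansion 1 g).coeff 0 = cuspFunction 1 g 0 := by
    simp [qExpansion_coeff]
  rw [h0]
  have : (cuspFunction 1 g ∘ fun τ : ℍ ↦ Function.Periodic.qParam 1 τ : ℍ → ℂ) = g := by
    funext τ
    simpa using eq_cuspFunction τ one_ne_zero hper
  have h2 := han.continuousAt.tendsto.comp (qParam_tendsto_atImInfty one_pos)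
  rw [this] at h2
  exact h2

end GaloisConj

open GaloisConj in
/-- **Galois conjugation of cusp forms**: for every `σ ∈ Aut(ℂ)` and every cusp form `f` on
`Γ₀(N)` there is a cusp form on `Γ₀(N)` of the same weight whose `q`-expansion is the
`σ`-conjugate of that of `f`. -/
theorem cuspForm_conj (N : ℕ) [NeZero N] (k : ℤ) (σ : ℂ ≃+* ℂ) (f : CuspForm (Gamma0 N) k) :
    ∃ f' : CuspForm (Gamma0 N) k,
      ∀ n : ℕ, (qExpansion 1 f').coeff n = σ ((qExpansion 1 f).coeff n) := by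
  classical
  set μ := Fintype.card (Q N) with hμ
  set x := xForm N with hx
  set F := cuspToMod f with hF
  -- level one data and their conjugates
  choose E' hE' using fun m : ℕ => exists_conj_SL σ (esymmForm x m)
  choose T' hT' using fun b : ℕ => exists_conj_SL σ (trMulPow x b F)
  choose S' hS' using fun b : ℕ => exists_conj_SL σ (trMulPow x b (1 : ModularForm (Gamma0 N) 0))
  choose A' hA' using fun i : ℕ => exists_conj_SL σ (esymmForm F i)
  have hxx : Conj σ x x := conj_xForm N σ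
  -- the conjugates of `D` and `G = f D`
  set Dσ : ℍ → ℂ := lag μ (fun m => E' m) (fun b => S' b) x with hDσ
  set Gσ : ℍ → ℂ := lag μ (fun m => E' m) (fun b => T' b) x with hGσ
  have hD : Conj σ (den N) Dσ := by
    have h := Conj.lag (fun m => hE' m) (fun b => hS' b) hxx μ
    have e : lag μ (fun m => esymmForm x m)
        (fun b => trMulPow x b (1 : ModularForm (Gamma0 N) 0)) x = den N := by
      funext τ
      rw [← lagrange_fun]
      simp
    rwa [e] at h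
  have hG : Conj σ ((F : ℍ → ℂ) * den N) Gσ := by
    have h := Conj.lag (fun m => hE' m) (fun b => hT' b) hxx μ
    have e : lag μ (fun m => esymmForm x m) (fun b => trMulPow x b F) x
        = (F : ℍ → ℂ) * den N := by
      funext τ
      rw [← lagrange_fun]
      rfl
    rwa [e] at h
  -- the coefficients of the integrality relation
  set a : ℕ → ℍ → ℂ := fun i =>
    if i = 0 then 1 else ((-1 : ℂ) ^ i) • (esymmForm F i : ℍ → ℂ) with ha_def
  set a' : ℕ → ℍ → ℂ := fun i => if i = 0 then 1 else ((-1 : ℂ) ^ i) • (A' i : ℍ → ℂ) with ha'_def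
  have ha : ∀ i, Conj σ (a i) (a' i) := by
    intro i
    by_cases hi : i = 0
    · simp only [ha_def, ha'_def, hi, if_true]
      exact Conj.one
    · simp only [ha_def, ha'_def, hi, if_false]
      have := (hA' i).smul ((-1 : ℂ) ^ i)
      simpa using this
  have hrel0 : rel μ a (den N) ((F : ℍ → ℂ) * den N) = 0 := by
    funext τ
    rw [rel_apply]
    have hch := charpoly_fun F τ
    have key : ∀ i ∈ Finset.range (μ + 1),
        a i τ * den N τ ^ i * ((F : ℍ → ℂ) * den N) τ ^ (μ - i)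
          = den N τ ^ μ * ((-1 : ℂ) ^ i * esymmForm F i τ * F τ ^ (μ - i)) := by
      intro i hi
      have hi' : i ≤ μ := Nat.lt_succ_iff.mp (Finset.mem_range.mp hi)
      have hai : a i τ = (-1 : ℂ) ^ i * esymmForm F i τ := by
        by_cases h0 : i = 0
        · subst h0
          have h1 : esymmForm F 0 τ = 1 := by
            rw [esymmForm_apply]
            simp
          simp [ha_def, h1]
        · simp [ha_def, h0]
      have hpow : den N τ ^ μ = den N τ ^ i * den N τ ^ (μ - i) := by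
        rw [← pow_add]
        congr 1
        omega
      rw [hai, Pi.mul_apply, mul_pow, hpow]
      ring
    rw [Finset.sum_congr rfl key, ← Finset.mul_sum, hch, mul_zero]
    rfl
  have hrel : rel μ a' Dσ Gσ = 0 := by
    have h := Conj.rel ha hD hG μ
    rw [hrel0] at h
    exact h.eq_zero
  have hden0 : den N ≠ 0 := resolventDen_ne_zero N
  have hD0 : Dσ ≠ 0 := hD.ne_zero hden0
  have ha'0 : a' 0 = 1 := by simp [ha'_def]
  -- holomorphic quotient
  obtain ⟨h, hh, hmul, hroot⟩ := exists_holo_quotient μ a' Gσ Dσ hG.2.1.mdiff hD.2.1.mdiff hD0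
    (fun i => (ha i).2.1.mdiff.continuous) ha'0
    (fun τ => by
      have := congrFun hrel τ
      rw [rel_apply] at this
      simpa using this)
  -- the end game
  have haS : ∀ (i : ℕ) (γ : SL(2, ℤ)), a' i ∣[(i : ℤ) * k] γ = a' i := by
    intro i γ
    by_cases hi : i = 0
    · subst hi
      simp only [ha'_def, if_true]
      simpa using is_invariant_one γ
    · simp only [ha'_def, hi, if_false]
      rw [SL_smul_slash, slash_SL]
  have haz : ∀ i : ℕ, 0 < i → IsZeroAtImInfty (a' i) := by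
    intro i hi
    have h0 : (qExpansion 1 (A' i)).coeff 0 = 0 := by
      have h1 := congrArg (PowerSeries.coeff 0) (hA' i).2.2
      rw [PowerSeries.coeff_map, esymmForm_cuspToMod_coeff_zero f i hi, map_zero] at h1
      exact h1
    have h2 := tendsto_coeffZero (A' i)
    rw [h0] at h2
    simp only [ha'_def, hi.ne', if_false]
    have h3 := h2.const_smul ((-1 : ℂ) ^ i)
    rw [smul_zero] at h3
    exact h3
  have hdΓ : ∀ γ : SL(2, ℤ), γ ∈ Gamma0 N → Dσ ∣[(0 : ℤ) + ((μ - 1 : ℕ) : ℤ) * 12] γ = Dσ :=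
    SlInv.lag (fun m => slInv_SL N (E' m)) (fun b => slInv_SL N (S' b)) (slInv_Gamma0 x) μ
  have hgΓ : ∀ γ : SL(2, ℤ), γ ∈ Gamma0 N →
      Gσ ∣[(0 : ℤ) + ((μ - 1 : ℕ) : ℤ) * 12 + k] γ = Gσ :=
    (SlInv.lag (fun m => slInv_SL N (E' m)) (fun b => slInv_SL N (T' b)) (slInv_Gamma0 x) μ).congr
      (by ring)
  obtain ⟨f', hf'⟩ := cuspForm_of_rel N k ((0 : ℤ) + ((μ - 1 : ℕ) : ℤ) * 12) μ a' Dσ Gσ h ha'0
    haS haz hD.2.1.mdiff hD0 hdΓ hgΓ hh hmul hroot
  refine ⟨f', ?_⟩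
  have hN : Nice h := hf' ▸ nice_Gamma0_cusp f'
  have e1 : qExpansion 1 h * qExpansion 1 Dσ = qExpansion 1 Gσ := by
    rw [← qExpansion_mul hN.analytic hD.2.1.analytic]
    congr 1
    funext τ
    exact hmul τ
  have e2 : qExpansion 1 Gσ = (qExpansion 1 F).map (σ : ℂ →+* ℂ) * qExpansion 1 Dσ := by
    rw [hG.2.2, qExpansion_mul (nice_Gamma0 F).analytic hD.1.analytic, map_mul, hD.2.2]
  have e3 : qExpansion 1 h = (qExpansion 1 F).map (σ : ℂ →+* ℂ) :=
    mul_right_cancel₀ (hD.qExpansion_ne_zero hden0) (e1.trans e2)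
  intro n
  rw [hf', e3, PowerSeries.coeff_map]
  rfl

end Fermat.Agent.S23
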