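import Mathlib

/-!
Galois descent along `Aut(ℂ)`:
* the fixed field of the ring automorphisms of `ℂ` is `ℚ`;
* a finite-dimensional subspace of `ι → ℂ` stable under all coefficientwise automorphisms
  is spanned by its rational-valued members.
-/

set_option autoImplicit false

namespace Fermat.Agent.S23.Descent

open MvPolynomial

/-- Any ring automorphism of the polynomial ring on a transcendence basis of `ℂ` over a subfield
extends to a ring automorphism of `ℂ`. -/
theorem exists_ringEquiv_of_mvPolynomial {K : Type*} [Field K] [Algebra K ℂ] {ι : Type*}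
    (v : ι → ℂ) (hv : IsTranscendenceBasis K v)
    (φ : MvPolynomial ι K ≃+* MvPolynomial ι K) :
    ∃ σ : ℂ ≃+* ℂ, ∀ p : MvPolynomial ι K, σ (aeval v p) = aeval v (φ p) := by
  have : IsAlgClosure (Algebra.adjoin K (Set.range v)) ℂ :=
    IsAlgClosed.isAlgClosure_of_transcendence_basis v hv
  let e : Algebra.adjoin K (Set.range v) ≃+* Algebra.adjoin K (Set.range v) :=
    hv.1.aevalEquiv.symm.toRingEquiv.trans (φ.trans hv.1.aevalEquiv.toRingEquiv)
  refine ⟨IsAlgClosure.equivOfEquiv ℂ ℂ e, fun p => ?_⟩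
  have h1 : aeval v p = algebraMap (Algebra.adjoin K (Set.range v)) ℂ (hv.1.aevalEquiv p) := rfl
  have h2 : aeval v (φ p) =
      algebraMap (Algebra.adjoin K (Set.range v)) ℂ (hv.1.aevalEquiv (φ p)) := rfl
  rw [h1, h2, IsAlgClosure.equivOfEquiv_algebraMap]
  congr 1
  simp [e]

/-- A transcendental complex number is moved by some ring automorphism of `ℂ`. -/
theorem exists_ringEquiv_ne_of_transcendental (z : ℂ) (hz : Transcendental ℚ z) :
    ∃ σ : ℂ ≃+* ℂ, σ z ≠ z := by
  classical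
  have hs : AlgebraicIndepOn ℚ id ({z} : Set ℂ) :=
    (algebraicIndependent_singleton_iff (⟨z, rfl⟩ : ({z} : Set ℂ))).2 hz
  obtain ⟨t, hzt, ht⟩ := exists_isTranscendenceBasis_superset hs
  let i₀ : t := ⟨z, hzt rfl⟩
  let f : MvPolynomial t ℚ →ₐ[ℚ] MvPolynomial t ℚ :=
    aeval (fun i => if i = i₀ then X i + 1 else X i)
  let g : MvPolynomial t ℚ →ₐ[ℚ] MvPolynomial t ℚ :=
    aeval (fun i => if i = i₀ then X i - 1 else X i)
  have hfg : f.comp g = AlgHom.id ℚ _ := by
    apply MvPolynomial.algHom_ext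
    intro i
    by_cases hi : i = i₀ <;> simp [f, g, hi]
  have hgf : g.comp f = AlgHom.id ℚ _ := by
    apply MvPolynomial.algHom_ext
    intro i
    by_cases hi : i = i₀ <;> simp [f, g, hi]
  obtain ⟨σ, hσ⟩ := exists_ringEquiv_of_mvPolynomial (K := ℚ) ((↑) : t → ℂ) ht
    (AlgEquiv.ofAlgHom f g hfg hgf).toRingEquiv
  refine ⟨σ, ?_⟩
  have h := hσ (X i₀)
  simp [f, i₀] at h
  rw [h]
  simp

/-- An algebraic irrational complex number is moved by some ring automorphism of `ℂ`. -/
theorem exists_ringEquiv_ne_of_isAlgebraic (z : ℂ) (hz : IsAlgebraic ℚ z)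
    (hq : z ∉ Set.range (algebraMap ℚ ℂ)) :
    ∃ σ : ℂ ≃+* ℂ, σ z ≠ z := by
  classical
  have hzK : z ∈ algebraicClosure ℚ ℂ := (mem_algebraicClosure_iff).2 hz
  have hAC : IsAlgClosure ℚ (algebraicClosure ℚ ℂ) := algebraicClosure.isAlgClosure ℚ ℂ
  have hGal : IsGalois ℚ (algebraicClosure ℚ ℂ) := IsAlgClosure.isGalois ℚ _
  have hnot : (⟨z, hzK⟩ : algebraicClosure ℚ ℂ) ∉
      Set.range (algebraMap ℚ (algebraicClosure ℚ ℂ)) := by
    rintro ⟨r, hr⟩
    exact hq ⟨r, by simpa using congrArg (algebraMap (algebraicClosure ℚ ℂ) ℂ) hr⟩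
  rw [InfiniteGalois.mem_range_algebraMap_iff_fixed] at hnot
  push Not at hnot
  obtain ⟨τ, hτ⟩ := hnot
  obtain ⟨s, hs⟩ := exists_isTranscendenceBasis (algebraicClosure ℚ ℂ) ℂ
  obtain ⟨σ, hσ⟩ := exists_ringEquiv_of_mvPolynomial (K := algebraicClosure ℚ ℂ)
    ((↑) : s → ℂ) hs (MvPolynomial.mapEquiv s τ.toRingEquiv)
  refine ⟨σ, ?_⟩
  have h := hσ (C ⟨z, hzK⟩)
  simp at h
  intro hzz
  apply hτ
  apply Subtype.ext
  rw [← h, hzz]

/-- The fixed field of the group of ring automorphisms of `ℂ` is `ℚ`. -/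
theorem mem_range_ratCast_of_forall_ringEquiv (z : ℂ) (h : ∀ σ : ℂ ≃+* ℂ, σ z = z) :
    z ∈ Set.range (algebraMap ℚ ℂ) := by
  by_contra hq
  by_cases hz : IsAlgebraic ℚ z
  · obtain ⟨σ, hσ⟩ := exists_ringEquiv_ne_of_isAlgebraic z hz hq
    exact hσ (h σ)
  · obtain ⟨σ, hσ⟩ := exists_ringEquiv_ne_of_transcendental z hz
    exact hσ (h σ)

/-- **Descent.** A finite-dimensional subspace of `ι → ℂ` which is stable under the
coefficientwise action of every ring automorphism of `ℂ` is spanned by its members all of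
whose coordinates are rational. -/
theorem span_rational_eq_of_ringEquiv_stable {ι : Type*} (W : Submodule ℂ (ι → ℂ))
    [FiniteDimensional ℂ W]
    (hW : ∀ σ : ℂ ≃+* ℂ, ∀ w ∈ W, (fun i => σ (w i)) ∈ W) :
    Submodule.span ℂ {w : ι → ℂ | w ∈ W ∧ ∀ i, w i ∈ Set.range (algebraMap ℚ ℂ)} = W := by
  classical
  apply le_antisymm
  · exact Submodule.span_le.2 fun w hw => hw.1
  -- the coordinate functionals on `W`
  let ev : ι → Module.Dual ℂ W := fun i => (LinearMap.proj i).comp W.subtype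
  have hspan : Submodule.span ℂ (Set.range ev) = ⊤ := by
    rw [← Subspace.dualCoannihilator_dualAnnihilator_eq (W := Submodule.span ℂ (Set.range ev))]
    have : (Submodule.span ℂ (Set.range ev)).dualCoannihilator = ⊥ := by
      rw [eq_bot_iff]
      intro w hw
      rw [Submodule.mem_dualCoannihilator] at hw
      rw [Submodule.mem_bot]
      apply Subtype.ext
      funext i
      exact hw (ev i) (Submodule.subset_span ⟨i, rfl⟩)
    rw [this, Submodule.dualAnnihilator_bot]
  obtain ⟨b, hb_sub, hb_span, hb_li⟩ := exists_linearIndependent ℂ (Set.range ev)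
  have hb_top : Submodule.span ℂ b = ⊤ := hb_span.trans hspan
  -- two members of `W` on which all functionals in `b` agree are equal
  have hinj : ∀ u w : W, (∀ ψ ∈ b, ψ u = ψ w) → u = w := by
    intro u w huw
    have hall : ∀ ψ : Module.Dual ℂ W, ψ u = ψ w := by
      intro ψ
      have hψ : ψ ∈ Submodule.span ℂ b := by rw [hb_top]; exact Submodule.mem_top
      induction hψ using Submodule.span_induction with
      | mem ψ hψ => exact huw ψ hψ
      | zero => simp
      | add ψ₁ ψ₂ _ _ h₁ h₂ => simp [h₁, h₂]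
      | smul c ψ _ h => simp [h]
    apply Subtype.ext
    funext i
    exact hall (ev i)
  have hfin : Finite b := hb_li.finite
  let B : Module.Basis b ℂ (Module.Dual ℂ W) :=
    Module.Basis.mk hb_li (by rw [Subtype.range_coe, hb_top])
  have hB : ∀ φ : b, B φ = φ.1 := fun φ => by simp [B]
  -- the dual basis, transported back to `W`
  let D : Module.Basis b ℂ W := B.dualBasis.map (Module.evalEquiv ℂ W).symm
  have hD : ∀ φ ψ : b, ψ.1 (D φ) = if ψ = φ then 1 else 0 := by
    intro φ ψ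
    have h1 : (Module.evalEquiv ℂ W) (D φ) = B.dualBasis φ := by simp [D]
    have h2 : (Module.evalEquiv ℂ W) (D φ) (B ψ) = (B ψ) (D φ) := rfl
    rw [← hB ψ, ← h2, h1, Module.Basis.dualBasis_apply_self]
  have hrat : ∀ φ : b, ∀ i, (D φ : ι → ℂ) i ∈ Set.range (algebraMap ℚ ℂ) := by
    intro φ i
    apply mem_range_ratCast_of_forall_ringEquiv
    intro σ
    have hu : (⟨fun j => σ ((D φ : ι → ℂ) j), hW σ _ (D φ).2⟩ : W) = D φ := by
      apply hinj
      intro ψ hψ
      obtain ⟨j, rfl⟩ := hb_sub hψ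
      have h3 := hD φ ⟨ev j, hψ⟩
      have h4 : (ev j) (D φ) = (D φ : ι → ℂ) j := rfl
      have h5 : (ev j) (⟨fun j => σ ((D φ : ι → ℂ) j), hW σ _ (D φ).2⟩ : W) =
          σ ((D φ : ι → ℂ) j) := rfl
      rw [h5, ← h4]
      simp only at h3
      rw [h3]
      split_ifs <;> simp
    exact congrFun (congrArg Subtype.val hu) i
  intro w hw
  have hmem : (⟨w, hw⟩ : W) ∈ Submodule.span ℂ (Set.range D) := by
    rw [D.span_eq]; exact Submodule.mem_top
  have hmap := Submodule.mem_map_of_mem (f := W.subtype) hmem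
  rw [Submodule.map_span] at hmap
  refine Submodule.span_mono ?_ hmap
  rintro _ ⟨_, ⟨φ, rfl⟩, rfl⟩
  exact ⟨(D φ).2, hrat φ⟩

end Fermat.Agent.S23.Descent
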