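import Mathlib
import Fermat.Agent.S23.Descent
import Fermat.Agent.S49.QCoeff
import Fermat.Prelude.Thm_ModularForm_sturm_bound_Gamma0

/-!
Reduction of the integral structure (`S23`) to finiteness of the full Hecke algebra over `ℤ`
plus stability of the space of cusp forms under `Aut(ℂ)` acting on `q`-expansions.
-/

set_option autoImplicit false

open CongruenceSubgroup ModularFormClass UpperHalfPlane

namespace Fermat.Agent.S23.Reduce

variable {N : ℕ} {k : ℤ}

/-- The `q`-expansion coefficients, as a `ℂ`-linear map. -/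
noncomputable def qMap (N : ℕ) (k : ℤ) : CuspForm (Gamma0 N) k →ₗ[ℂ] (ℕ → ℂ) where
  toFun f n := qCoeff ⇑f n
  map_add' f g := funext fun n => Fermat.Agent.S49.qCoeff_add f g n
  map_smul' c f := funext fun n => Fermat.Agent.S49.qCoeff_smul c f n

@[simp] theorem qMap_apply (f : CuspForm (Gamma0 N) k) (n : ℕ) : qMap N k f n = qCoeff ⇑f n := rfl

theorem qMap_injective : Function.Injective (qMap N k) := by
  rw [← LinearMap.ker_eq_bot, LinearMap.ker_eq_bot']
  intro f hf
  exact Fermat.Agent.S49.eq_zero_of_qCoeff_eq_zero f fun n => congrFun hf n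

/-- Truncated `q`-expansion. -/
noncomputable def trunc (N : ℕ) (k : ℤ) (B : ℕ) :
    CuspForm (Gamma0 N) k →ₗ[ℂ] (Fin (B + 1) → ℂ) where
  toFun f i := qCoeff ⇑f i
  map_add' f g := funext fun i => Fermat.Agent.S49.qCoeff_add f g i
  map_smul' c f := funext fun i => Fermat.Agent.S49.qCoeff_smul c f i

theorem trunc_injective (N : ℕ) [NeZero N] (k : ℤ) :
    Function.Injective (trunc N k ((k * (Gamma0 N).index).toNat / 12)) := by
  refine (injective_iff_map_eq_zero _).mpr fun f hf ↦ ?_
  have hmf : (ModularFormClass.modularForm f : ModularForm (Gamma0 N) k) = 0 := by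
    refine ModularForm.sturm_bound_Gamma0 N _ fun n hn ↦ ?_
    have := congrFun hf ⟨n, Nat.lt_succ_of_le hn⟩
    simpa [trunc, qCoeff] using this
  have hcoe : (⇑f : ℍ → ℂ) = 0 := by
    have := congrArg (fun F : ModularForm (Gamma0 N) k ↦ (⇑F : ℍ → ℂ)) hmf
    simpa using this
  exact DFunLike.coe_injective (hcoe.trans FunLike.coe_zero.symm)

theorem finiteDimensional (N : ℕ) [NeZero N] (k : ℤ) :
    FiniteDimensional ℂ (CuspForm (Gamma0 N) k) :=
  FiniteDimensional.of_injective _ (trunc_injective N k)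

/-- For every `n ≥ 1` the functional `a_n` is `a_1 ∘ t` for some `t` in the full Hecke algebra. -/
theorem exists_hecke_qCoeff (N : ℕ) [NeZero N] (k : ℤ) (hk : 1 ≤ k) (n : ℕ) (hn : 1 ≤ n) :
    ∃ t ∈ CuspForm.heckeAlgebra N k ∅, ∀ f : CuspForm (Gamma0 N) k,
      qCoeff ⇑(t f) 1 = qCoeff ⇑f n := by
  induction n using Nat.strong_induction_on with
  | _ n ih =>
    rcases Nat.lt_or_ge 1 n with h1 | h1
    swap
    · have : n = 1 := le_antisymm h1 hn
      subst this
      exact ⟨1, Subalgebra.one_mem _, fun f => rfl⟩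
    · set p := n.minFac with hp_def
      have hp : p.Prime := Nat.minFac_prime (by omega)
      have hpn : p ∣ n := Nat.minFac_dvd n
      obtain ⟨m, hm⟩ := hpn
      have hm' : n = m * p := by rw [hm, mul_comm]
      have hm1 : 1 ≤ m := by
        rcases Nat.eq_zero_or_pos m with h0 | h0
        · subst h0; omega
        · exact h0
      have hmn : m < n := by
        rw [hm']
        exact lt_mul_of_one_lt_right hm1 hp.one_lt
      obtain ⟨tm, htm, htm'⟩ := ih m hmn hm1
      by_cases hpN : p ∣ N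
      · refine ⟨tm * CuspForm.heckeULin k hpN, Subalgebra.mul_mem _ htm
          (CuspForm.heckeULin_mem_heckeAlgebra hp hpN (Set.notMem_empty p)), fun f => ?_⟩
        rw [Module.End.mul_apply, htm', Fermat.Agent.S49.qCoeff_heckeULin hp hpN, hm']
      · by_cases hpm : p ∣ m
        · obtain ⟨m', hm''⟩ := hpm
          have hm'1 : 1 ≤ m' := by
            rcases Nat.eq_zero_or_pos m' with h0 | h0
            · subst h0; omega
            · exact h0
          have hm'n : m' < n := by
            have : m' < m := by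
              rw [hm'', mul_comm]
              exact lt_mul_of_one_lt_right hm'1 hp.one_lt
            omega
          obtain ⟨tm', htm'1, htm'2⟩ := ih m' hm'n hm'1
          have hdiv : m / p = m' := by
            rw [hm'']; exact Nat.mul_div_cancel_left m' hp.pos
          refine ⟨tm * CuspForm.heckeTLin k hp hpN - ((p ^ (k - 1).toNat : ℕ) : ℤ) • tm',
            Subalgebra.sub_mem _ (Subalgebra.mul_mem _ htm
              (CuspForm.heckeTLin_mem_heckeAlgebra hp hpN (Set.notMem_empty p)))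
              (Subalgebra.zsmul_mem _ htm'1 _), fun f => ?_⟩
          rw [LinearMap.sub_apply, Fermat.Agent.S49.qCoeff_sub, Module.End.mul_apply, htm',
            Fermat.Agent.S49.qCoeff_heckeTLin hp hpN, if_pos ⟨m', hm''⟩, hdiv,
            LinearMap.smul_apply, Fermat.Agent.S49.qCoeff_zsmul, htm'2, hm']
          have hkk : (p : ℂ) ^ (k - 1) = ((p ^ (k - 1).toNat : ℕ) : ℂ) := by
            have : k - 1 = ((k - 1).toNat : ℤ) := (Int.toNat_of_nonneg (by omega)).symm
            conv_lhs => rw [this]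
            rw [zpow_natCast]
            push_cast
            rfl
          rw [hkk]
          push_cast
          ring
        · refine ⟨tm * CuspForm.heckeTLin k hp hpN, Subalgebra.mul_mem _ htm
            (CuspForm.heckeTLin_mem_heckeAlgebra hp hpN (Set.notMem_empty p)), fun f => ?_⟩
          rw [Module.End.mul_apply, htm', Fermat.Agent.S49.qCoeff_heckeTLin hp hpN, if_neg hpm,
            add_zero, hm']

/-- A cusp form all of whose `q`-coefficients are rational. -/
def IsRat (f : CuspForm (Gamma0 N) k) : Prop :=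
  ∀ n : ℕ, qCoeff ⇑f n ∈ Set.range (algebraMap ℚ ℂ)

theorem IsRat.add {f g : CuspForm (Gamma0 N) k} (hf : IsRat f) (hg : IsRat g) : IsRat (f + g) := by
  intro n
  obtain ⟨a, ha⟩ := hf n
  obtain ⟨b, hb⟩ := hg n
  exact ⟨a + b, by rw [Fermat.Agent.S49.qCoeff_add, ← ha, ← hb, map_add]⟩

theorem IsRat.zsmul {f : CuspForm (Gamma0 N) k} (hf : IsRat f) (c : ℤ) : IsRat (c • f) := by
  intro n
  obtain ⟨a, ha⟩ := hf n
  exact ⟨c * a, by rw [Fermat.Agent.S49.qCoeff_zsmul, ← ha]; simp⟩

/-- The Hecke algebra preserves forms with rational coefficients. -/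
theorem IsRat.hecke [NeZero N] (hk : 1 ≤ k) {t : Module.End ℂ (CuspForm (Gamma0 N) k)}
    (ht : t ∈ CuspForm.heckeAlgebra N k ∅) :
    ∀ f : CuspForm (Gamma0 N) k, IsRat f → IsRat (t f) := by
  unfold CuspForm.heckeAlgebra at ht
  induction ht using Algebra.adjoin_induction with
  | mem t ht =>
    intro f hf n
    rcases ht with ⟨ℓ, hℓ, hℓN, -, rfl⟩ | ⟨q, hqN, hq, -, rfl⟩
    · rw [Fermat.Agent.S49.qCoeff_heckeTLin hℓ hℓN]
      obtain ⟨a, ha⟩ := hf (n * ℓ)
      have hkk : (ℓ : ℂ) ^ (k - 1) = algebraMap ℚ ℂ ((ℓ : ℚ) ^ (k - 1).toNat) := by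
        have : k - 1 = ((k - 1).toNat : ℤ) := (Int.toNat_of_nonneg (by omega)).symm
        conv_lhs => rw [this]
        rw [zpow_natCast]
        simp
      split_ifs with h
      · obtain ⟨b, hb⟩ := hf (n / ℓ)
        exact ⟨a + (ℓ : ℚ) ^ (k - 1).toNat * b, by rw [map_add, map_mul, ha, hb, hkk]⟩
      · exact ⟨a, by rw [ha, add_zero]⟩
    · rw [Fermat.Agent.S49.qCoeff_heckeULin hq hqN]
      exact hf (n * q)
  | algebraMap c =>
    intro f hf
    have : (algebraMap ℤ (Module.End ℂ (CuspForm (Gamma0 N) k)) c) f = c • f := by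
      simp
    rw [this]
    exact hf.zsmul c
  | add a b _ _ iha ihb =>
    intro f hf
    rw [LinearMap.add_apply]
    exact (iha f hf).add (ihb f hf)
  | mul a b _ _ iha ihb =>
    intro f hf
    rw [Module.End.mul_apply]
    exact iha _ (ihb f hf)

/-- A finitely generated `ℤ`-submodule of `ℂ` consisting of rational numbers has bounded
denominators. -/
theorem exists_denominator (R : Submodule ℤ ℂ) (hfg : R.FG)
    (hrat : ∀ x ∈ R, x ∈ Set.range (algebraMap ℚ ℂ)) :
    ∃ m : ℕ, m ≠ 0 ∧ ∀ x ∈ R, ∃ c : ℤ, (m : ℂ) * x = c := by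
  classical
  obtain ⟨s, hs⟩ := hfg
  have hs' : ∀ x ∈ s, x ∈ Set.range (algebraMap ℚ ℂ) := fun x hx =>
    hrat x (hs ▸ Submodule.subset_span hx)
  choose! r hr using hs'
  refine ⟨∏ x ∈ s, (r x).den, Finset.prod_ne_zero_iff.2 fun x _ => (r x).den_ne_zero, ?_⟩
  intro x hx
  rw [← hs] at hx
  induction hx using Submodule.span_induction with
  | mem x hx =>
    obtain ⟨d, hd⟩ := Finset.dvd_prod_of_mem (fun x => (r x).den) hx
    refine ⟨d * (r x).num, ?_⟩
    have h1 : ((r x).den : ℂ) ≠ 0 := by exact_mod_cast (r x).den_ne_zero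
    have h2 : algebraMap ℚ ℂ (r x) = ((r x).num : ℂ) / ((r x).den : ℂ) := by
      conv_lhs => rw [← Rat.num_div_den (r x)]
      simp
    have h3 : x = algebraMap ℚ ℂ (r x) := (hr x hx).symm
    have h4 : ((r x).den : ℂ) * algebraMap ℚ ℂ (r x) = ((r x).num : ℂ) := by
      rw [h2]; field_simp
    have key : ((r x).den : ℂ) * x = ((r x).num : ℂ) := by
      calc ((r x).den : ℂ) * x = ((r x).den : ℂ) * algebraMap ℚ ℂ (r x) := by rw [← h3]
        _ = _ := h4
    rw [hd]
    push_cast
    linear_combination (d : ℂ) * key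
  | zero => exact ⟨0, by simp⟩
  | add x y _ _ hx hy =>
    obtain ⟨a, ha⟩ := hx
    obtain ⟨b, hb⟩ := hy
    exact ⟨a + b, by rw [mul_add, ha, hb]; push_cast; ring⟩
  | smul c x _ hx =>
    obtain ⟨a, ha⟩ := hx
    exact ⟨c * a, by rw [zsmul_eq_mul, mul_left_comm, ha]; push_cast; ring⟩

/-- Bounded denominators for rational cusp forms, from finiteness of the Hecke algebra. -/
theorem IsRat.exists_denominator [NeZero N] (hk : 1 ≤ k)
    (hfin : Module.Finite ℤ (CuspForm.heckeAlgebra N k ∅))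
    {f : CuspForm (Gamma0 N) k} (hf : IsRat f) :
    ∃ m : ℕ, m ≠ 0 ∧ ∀ n : ℕ, ∃ c : ℤ, (m : ℂ) * qCoeff ⇑f n = c := by
  let e : (CuspForm.heckeAlgebra N k ∅) →ₗ[ℤ] ℂ :=
    { toFun := fun t => qCoeff ⇑((t : Module.End ℂ (CuspForm (Gamma0 N) k)) f) 1
      map_add' := fun s t => by
        show qCoeff ⇑(((s : Module.End ℂ (CuspForm (Gamma0 N) k)) + t) f) 1 = _
        rw [LinearMap.add_apply, Fermat.Agent.S49.qCoeff_add]
      map_smul' := fun c t => by
        show qCoeff ⇑((c • (t : Module.End ℂ (CuspForm (Gamma0 N) k))) f) 1 = _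
        rw [LinearMap.smul_apply, Fermat.Agent.S49.qCoeff_zsmul]
        simp }
  have hfg : (LinearMap.range e).FG := by
    rw [LinearMap.range_eq_map]
    exact Submodule.FG.map e hfin.fg_top
  have hrat : ∀ x ∈ LinearMap.range e, x ∈ Set.range (algebraMap ℚ ℂ) := by
    rintro _ ⟨t, rfl⟩
    exact IsRat.hecke hk t.2 f hf 1
  obtain ⟨m, hm0, hm⟩ := Reduce.exists_denominator _ hfg hrat
  refine ⟨m, hm0, fun n => ?_⟩
  rcases Nat.eq_zero_or_pos n with h0 | h0
  · subst h0
    exact ⟨0, by rw [Fermat.Agent.S49.qCoeff_cusp_zero]; simp⟩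
  · obtain ⟨t, ht, ht'⟩ := exists_hecke_qCoeff N k hk n h0
    have := hm (e ⟨t, ht⟩) ⟨⟨t, ht⟩, rfl⟩
    rw [← ht' f]
    exact this

/-- **Reduction of S23.** If the full Hecke algebra is finite over `ℤ` and the space of cusp
forms is stable under the coefficientwise action of `Aut(ℂ)` on `q`-expansions, then the cusp
forms with integral `q`-expansion span. -/
theorem hasIntegralStructure_of_galois_stable (N : ℕ) [NeZero N] (k : ℤ) (hk : 1 ≤ k)
    (hfin : Module.Finite ℤ (CuspForm.heckeAlgebra N k ∅))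
    (hgal : ∀ (σ : ℂ ≃+* ℂ) (f : CuspForm (Gamma0 N) k),
      ∃ g : CuspForm (Gamma0 N) k, ∀ n : ℕ, qCoeff ⇑g n = σ (qCoeff ⇑f n)) :
    CuspForm.HasIntegralStructure N k := by
  have := finiteDimensional N k
  unfold CuspForm.HasIntegralStructure
  rw [eq_top_iff]
  -- Step 1: rational forms span
  have hW : ∀ σ : ℂ ≃+* ℂ, ∀ w ∈ LinearMap.range (qMap N k),
      (fun i => σ (w i)) ∈ LinearMap.range (qMap N k) := by
    rintro σ _ ⟨f, rfl⟩
    obtain ⟨g, hg⟩ := hgal σ f
    exact ⟨g, funext fun n => hg n⟩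
  have hspan := Descent.span_rational_eq_of_ringEquiv_stable (LinearMap.range (qMap N k)) hW
  have hset : {w : ℕ → ℂ | w ∈ LinearMap.range (qMap N k) ∧
      ∀ i, w i ∈ Set.range (algebraMap ℚ ℂ)} = qMap N k '' {g | IsRat g} := by
    ext w
    constructor
    · rintro ⟨⟨g, rfl⟩, hw⟩
      exact ⟨g, hw, rfl⟩
    · rintro ⟨g, hg, rfl⟩
      exact ⟨⟨g, rfl⟩, hg⟩
  rw [hset, ← Submodule.map_span] at hspan
  have hrat_span : Submodule.span ℂ {g : CuspForm (Gamma0 N) k | IsRat g} = ⊤ := by
    rw [eq_top_iff]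
    intro f _
    have hf : qMap N k f ∈ LinearMap.range (qMap N k) := ⟨f, rfl⟩
    rw [← hspan] at hf
    obtain ⟨g, hg, hgf⟩ := hf
    rwa [← qMap_injective hgf]
  -- Step 2: rational forms are complex multiples of integral forms
  rw [← hrat_span]
  refine Submodule.span_le.2 fun g hg => ?_
  obtain ⟨m, hm0, hm⟩ := IsRat.exists_denominator hk hfin hg
  have hmem : (m : ℂ) • g ∈ CuspForm.intLattice N k := by
    rw [Fermat.Agent.S49.mem_intLattice_iff]
    intro n
    obtain ⟨c, hc⟩ := hm n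
    exact ⟨c, by rw [Fermat.Agent.S49.qCoeff_smul, hc]⟩
  have hm0' : (m : ℂ) ≠ 0 := by exact_mod_cast hm0
  have : g = (m : ℂ)⁻¹ • ((m : ℂ) • g) := by
    rw [smul_smul, inv_mul_cancel₀ hm0', one_smul]
  rw [this]
  exact Submodule.smul_mem _ _ (Submodule.subset_span hmem)

end Fermat.Agent.S23.Reduce
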